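import Mathlib.Analysis.SpecialFunctions.Pow.Continuity
import Mathlib.LinearAlgebra.Matrix.SpecialLinearGroup
import Mathlib.MeasureTheory.Measure.Haar.Unique
import Mathlib.MeasureTheory.Measure.Lebesgue.EqHaar
import Mathlib.Topology.Algebra.Group.Matrix

/-!
# The cone measure on the real special linear group

The measure of a set `A` of matrices of determinant one is the volume of the cone
`{t g : g ∈ A, 0 < t ≤ 1}`.  It is invariant under translations on both sides and is a Haar
measure, so every Haar measure is a multiple of it.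
-/

set_option autoImplicit false

noncomputable section

open MeasureTheory Matrix Set
open scoped ENNReal NNReal

namespace FA.SLnLattice

variable {n : ℕ}

/-- The real special linear group. -/
abbrev SLR (n : ℕ) := Matrix.SpecialLinearGroup (Fin n) ℝ

/-- Square matrices as tuples of rows, with Lebesgue measure. -/
abbrev Rows (n : ℕ) := Fin n → Fin n → ℝ

/-- The determinant of a tuple of rows. -/
def rdet (X : Rows n) : ℝ := (Matrix.of X).det

theorem continuous_rdet : Continuous (rdet : Rows n → ℝ) := by
  refine Continuous.matrix_det ?_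
  exact continuous_id

instance instSecondCountableSLR : SecondCountableTopology (SLR n) :=
  haveI : SecondCountableTopology (Matrix (Fin n) (Fin n) ℝ) :=
    inferInstanceAs (SecondCountableTopology (Rows n))
  (Matrix.SpecialLinearGroup.isClosedEmbedding_val).isInducing.secondCountableTopology

instance instLocallyCompactSLR : LocallyCompactSpace (SLR n) :=
  haveI : LocallyCompactSpace (Matrix (Fin n) (Fin n) ℝ) :=
    inferInstanceAs (LocallyCompactSpace (Rows n))
  (Matrix.SpecialLinearGroup.isClosedEmbedding_val).locallyCompactSpace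

theorem det_scaled (X : Rows n) (hd : 0 < rdet X) :
    ((rdet X ^ (-((n : ℝ)⁻¹))) • Matrix.of X).det = 1 := by
  rw [Matrix.det_smul, Fintype.card_fin]
  rcases eq_or_ne n 0 with rfl | hn
  · simp
  · rw [← Real.rpow_natCast _ n, ← Real.rpow_mul hd.le, neg_mul, inv_mul_cancel₀
      (Nat.cast_ne_zero.2 hn), Real.rpow_neg_one]
    exact inv_mul_cancel₀ hd.ne'

/-- The projection of a matrix of positive determinant to the special linear group. -/
def proj (X : Rows n) : SLR n :=
  if h : 0 < rdet X then ⟨(rdet X ^ (-((n : ℝ)⁻¹))) • Matrix.of X, det_scaled X h⟩ else 1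

theorem coe_proj {X : Rows n} (h : 0 < rdet X) :
    (proj X : Matrix (Fin n) (Fin n) ℝ) = (rdet X ^ (-((n : ℝ)⁻¹))) • Matrix.of X := by
  rw [proj, dif_pos h]

theorem proj_of_not_pos {X : Rows n} (h : ¬ 0 < rdet X) : proj X = 1 := by rw [proj, dif_neg h]

/-- The matrices with determinant in `(0, 1]`. -/
def unitCone (n : ℕ) : Set (Rows n) := {X | rdet X ∈ Ioc (0 : ℝ) 1}

theorem measurableSet_unitCone : MeasurableSet (unitCone n) :=
  continuous_rdet.measurable measurableSet_Ioc

/-- The cone over a set of matrices of determinant one. -/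
def cone (A : Set (SLR n)) : Set (Rows n) :=
  {X | ∃ t ∈ Ioc (0 : ℝ) 1, ∃ g ∈ A, X = fun i j => t * g i j}

theorem rdet_mul_left (t : ℝ) (g : SLR n) : rdet (fun i j => t * g i j) = t ^ n := by
  have e : Matrix.of (fun i j => t * g i j) = t • (g : Matrix (Fin n) (Fin n) ℝ) := by
    ext i j
    simp
  rw [rdet, e, Matrix.det_smul, g.prop, mul_one, Fintype.card_fin]

theorem proj_smul [NeZero n] {t : ℝ} (ht : 0 < t) (g : SLR n) :
    proj (fun i j => t * g i j) = g := by
  have h : 0 < rdet fun i j => t * g i j := by
    rw [rdet_mul_left]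
    positivity
  refine Subtype.ext ?_
  rw [coe_proj h, rdet_mul_left]
  ext i j
  rw [← Real.rpow_natCast, ← Real.rpow_mul ht.le, mul_neg,
    mul_inv_cancel₀ (Nat.cast_ne_zero.2 (NeZero.ne n)), Real.rpow_neg_one, Matrix.smul_apply,
    smul_eq_mul, Matrix.of_apply, inv_mul_cancel_left₀ ht.ne']

theorem eq_smul_proj {X : Rows n} (h : 0 < rdet X) :
    X = fun i j => rdet X ^ ((n : ℝ)⁻¹) * proj X i j := by
  ext i j
  rw [coe_proj h, Matrix.smul_apply, smul_eq_mul, Matrix.of_apply, ← mul_assoc,
    ← Real.rpow_add h, add_neg_cancel, Real.rpow_zero, one_mul]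

theorem cone_eq [NeZero n] (A : Set (SLR n)) : cone A = proj ⁻¹' A ∩ unitCone n := by
  ext X
  constructor
  · rintro ⟨t, ⟨ht, ht'⟩, g, hg, rfl⟩
    refine ⟨by rwa [mem_preimage, proj_smul ht], ?_⟩
    rw [unitCone, mem_ofPred_eq, rdet_mul_left]
    exact ⟨by positivity, pow_le_one₀ ht.le ht'⟩
  · rintro ⟨hA, h, h'⟩
    exact ⟨rdet X ^ ((n : ℝ)⁻¹), ⟨Real.rpow_pos_of_pos h _,
      Real.rpow_le_one h.le h' (by positivity)⟩, proj X, hA, eq_smul_proj h⟩

theorem isOpen_pos : IsOpen {X : Rows n | 0 < rdet X} :=
  isOpen_lt continuous_const continuous_rdet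

theorem continuousOn_proj : ContinuousOn proj {X : Rows n | 0 < rdet X} := by
  refine ((Matrix.SpecialLinearGroup.isClosedEmbedding_val (n := Fin n)
    (R := ℝ)).isInducing.continuousOn_iff).2 ?_
  refine ContinuousOn.congr (f := fun X : Rows n => (rdet X ^ (-((n : ℝ)⁻¹))) • Matrix.of X) ?_
    fun X hX => coe_proj hX
  exact (continuous_rdet.continuousOn.rpow_const fun X hX => Or.inl (ne_of_gt hX)).smul
    continuous_id.continuousOn

/-- The linear map transposing a square matrix. -/
def transposeMap (n : ℕ) : Rows n →ₗ[ℝ] Rows n where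
  toFun X i j := X j i
  map_add' _ _ := rfl
  map_smul' _ _ := rfl

theorem measurePreserving_transpose :
    MeasurePreserving (transposeMap n : Rows n → Rows n) volume volume := by
  have hc : (transposeMap n).comp (transposeMap n) = LinearMap.id := rfl
  have h1 : LinearMap.det (transposeMap n) * LinearMap.det (transposeMap n) = 1 := by
    rw [← LinearMap.det_comp, hc, LinearMap.det_id]
  have h2 : |(LinearMap.det (transposeMap n))⁻¹| = 1 := by
    rcases mul_self_eq_one_iff.1 h1 with h | h <;> simp [h]
  refine ⟨(transposeMap n).continuous_of_finiteDimensional.measurable, ?_⟩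
  rw [Measure.map_linearMap_addHaar_eq_smul_addHaar (μ := volume)
    (fun h => by simp [h] at h1), h2, ENNReal.ofReal_one, one_smul]

theorem measurePreserving_rows {M : Matrix (Fin n) (Fin n) ℝ} (hM : M.det = 1) :
    MeasurePreserving (fun (X : Rows n) (i : Fin n) => M *ᵥ X i) volume volume := by
  refine volume_preserving_pi (f := fun _ v => M *ᵥ v) fun _ => ⟨?_, ?_⟩
  · exact (Matrix.toLin' M).continuous_of_finiteDimensional.measurable
  · have h := Real.map_matrix_volume_pi_eq_smul_volume_pi (M := M) (by rw [hM]; exact one_ne_zero)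
    rwa [hM, inv_one, abs_one, ENNReal.ofReal_one, one_smul] at h

/-- Left translation on tuples of rows. -/
def lmul (h : SLR n) (X : Rows n) : Rows n := fun i j => (h.1 * Matrix.of X) i j

/-- Right translation on tuples of rows. -/
def rmul (h : SLR n) (X : Rows n) : Rows n := fun i j => (Matrix.of X * h.1) i j

theorem rdet_lmul (h : SLR n) (X : Rows n) : rdet (lmul h X) = rdet X := by
  have e : Matrix.of (lmul h X) = h.1 * Matrix.of X := rfl
  rw [rdet, e, Matrix.det_mul, h.2, one_mul, rdet]

theorem rdet_rmul (h : SLR n) (X : Rows n) : rdet (rmul h X) = rdet X := by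
  have e : Matrix.of (rmul h X) = Matrix.of X * h.1 := rfl
  rw [rdet, e, Matrix.det_mul, h.2, mul_one, rdet]

theorem mul_proj (h : SLR n) {X : Rows n} (hX : 0 < rdet X) : h * proj X = proj (lmul h X) := by
  refine Subtype.ext ?_
  have e := coe_proj (X := lmul h X) (by rw [rdet_lmul]; exact hX)
  rw [rdet_lmul] at e
  exact (congrArg (h.1 * ·) (coe_proj hX)).trans ((Matrix.mul_smul _ _ _).trans e.symm)

theorem proj_mul (h : SLR n) {X : Rows n} (hX : 0 < rdet X) : proj X * h = proj (rmul h X) := by
  refine Subtype.ext ?_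
  have e := coe_proj (X := rmul h X) (by rw [rdet_rmul]; exact hX)
  rw [rdet_rmul] at e
  exact (congrArg (· * h.1) (coe_proj hX)).trans ((Matrix.smul_mul _ _ _).trans e.symm)

theorem measurePreserving_lmul (h : SLR n) : MeasurePreserving (lmul h) volume volume := by
  exact (measurePreserving_transpose (n := n)).comp
    ((measurePreserving_rows h.2).comp measurePreserving_transpose)

theorem measurePreserving_rmul (h : SLR n) : MeasurePreserving (rmul h) volume volume := by
  convert! measurePreserving_rows (M := h.1ᵀ) (by rw [Matrix.det_transpose, h.2]) using 1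
  funext X i j
  simp [rmul, Matrix.mul_apply, Matrix.mulVec, dotProduct, mul_comm]

variable [MeasurableSpace (SLR n)] [BorelSpace (SLR n)]

theorem measurable_proj : Measurable (proj : Rows n → SLR n) := by
  refine measurable_of_isOpen fun U hU => ?_
  have h1 : MeasurableSet ({X : Rows n | 0 < rdet X} ∩ proj ⁻¹' U) :=
    (continuousOn_proj.isOpen_inter_preimage isOpen_pos hU).measurableSet
  have h2 : MeasurableSet ({X : Rows n | 0 < rdet X}ᶜ ∩ proj ⁻¹' U) := by
    by_cases h1U : (1 : SLR n) ∈ U
    · rw [inter_eq_left.2 fun X hX => by rw [mem_preimage, proj_of_not_pos hX]; exact h1U]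
      exact isOpen_pos.measurableSet.compl
    · convert! MeasurableSet.empty
      refine eq_empty_of_forall_notMem fun X hX => h1U ?_
      have := hX.2
      rwa [mem_preimage, proj_of_not_pos hX.1] at this
  convert! h1.union h2 using 1
  rw [← union_inter_distrib_right, union_compl_self, univ_inter]

/-- **The cone measure.** -/
def coneMeasure (n : ℕ) [MeasurableSpace (SLR n)] : Measure (SLR n) :=
  (volume.restrict (unitCone n)).map proj

theorem coneMeasure_apply [NeZero n] {A : Set (SLR n)} (hA : MeasurableSet A) :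
    coneMeasure n A = volume (cone A) := by
  rw [coneMeasure, Measure.map_apply measurable_proj hA,
    Measure.restrict_apply (measurable_proj hA), cone_eq]

theorem map_coneMeasure (L : Rows n → Rows n) (F : SLR n → SLR n) (hF : Measurable F)
    (hL : MeasurePreserving L volume volume) (hdet : ∀ X, rdet (L X) = rdet X)
    (hcomm : ∀ X, 0 < rdet X → F (proj X) = proj (L X)) :
    (coneMeasure n).map F = coneMeasure n := by
  have hpre : L ⁻¹' unitCone n = unitCone n := by
    ext X
    simp [unitCone, hdet]
  have hL' := hL.restrict_preimage (measurableSet_unitCone (n := n))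
  rw [hpre] at hL'
  rw [coneMeasure, Measure.map_map hF measurable_proj]
  conv_rhs => rw [← hL'.map_eq, Measure.map_map measurable_proj hL.measurable]
  refine Measure.map_congr ?_
  filter_upwards [ae_restrict_mem measurableSet_unitCone] with X hX
  exact hcomm X hX.1

instance isMulLeftInvariant_coneMeasure : (coneMeasure n).IsMulLeftInvariant :=
  ⟨fun h => map_coneMeasure _ _ (continuous_const_mul h).measurable (measurePreserving_lmul h)
    (rdet_lmul h) fun _ hX => mul_proj h hX⟩

instance isMulRightInvariant_coneMeasure : (coneMeasure n).IsMulRightInvariant :=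
  ⟨fun h => map_coneMeasure _ _ (continuous_mul_const h).measurable (measurePreserving_rmul h)
    (rdet_rmul h) fun _ hX => proj_mul h hX⟩

instance isHaarMeasure_coneMeasure [NeZero n] : (coneMeasure n).IsHaarMeasure where
  lt_top_of_isCompact K hK := by
    rw [coneMeasure_apply hK.measurableSet]
    have hc : IsCompact ((fun p : ℝ × SLR n => fun i j => p.1 * p.2 i j) '' Icc (0 : ℝ) 1 ×ˢ K) :=
      (isCompact_Icc.prod hK).image (by fun_prop)
    refine (measure_mono ?_).trans_lt hc.measure_lt_top
    rintro X ⟨t, ht, g, hg, rfl⟩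
    exact ⟨(t, g), ⟨⟨ht.1.le, ht.2⟩, hg⟩, rfl⟩
  open_pos U hU hne := by
    rw [coneMeasure_apply hU.measurableSet]
    obtain ⟨g, hg⟩ := hne
    have ho : IsOpen ({X : Rows n | 0 < rdet X} ∩ proj ⁻¹' U ∩ {X | rdet X < 1}) :=
      (continuousOn_proj.isOpen_inter_preimage isOpen_pos hU).inter
        (isOpen_lt continuous_rdet continuous_const)
    refine ((ho.measure_pos volume ⟨fun i j => (1 / 2 : ℝ) * g i j, ?_⟩).trans_le
      (measure_mono ?_)).ne'
    · refine ⟨⟨?_, by rwa [mem_preimage, proj_smul (by norm_num)]⟩, ?_⟩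
      · rw [mem_ofPred_eq, rdet_mul_left]
        positivity
      · rw [mem_ofPred_eq, rdet_mul_left]
        exact pow_lt_one₀ (by norm_num) (by norm_num) (NeZero.ne n)
    · rintro X ⟨⟨h1, h2⟩, h3⟩
      rw [cone_eq]
      exact ⟨h2, h1, h3.le⟩

theorem exists_eq_smul_coneMeasure [NeZero n] (μ : Measure (SLR n)) [μ.IsHaarMeasure] :
    ∃ c : ℝ≥0, 0 < c ∧ μ = c • coneMeasure n :=
  ⟨_, Measure.haarScalarFactor_pos_of_isHaarMeasure μ (coneMeasure n),
    Measure.isMulLeftInvariant_eq_smul μ (coneMeasure n)⟩

end FA.SLnLattice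

end
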