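import Fermat.Agent.SLnLattice.Volume

/-!
# The Siegel set has finite measure

The reduced matrices form a closed set of finite cone measure.
-/

set_option autoImplicit false

noncomputable section

open MeasureTheory Matrix Set
open scoped RealInnerProductSpace ENNReal NNReal

namespace FA.SLnLattice

variable {n : ℕ}

theorem rdet_sq_eq {e : Tuple n n} {x : Fin n → Fin n → ℝ} {X : Rows n} (he : Orthonormal ℝ e)
    (htri : ∀ i j, i < j → x i j = 0) (hX : ∀ i, euclRows X i = ∑ j, x i j • e j) :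
    rdet X ^ 2 = (∏ i, x i i) ^ 2 := by
  obtain ⟨F, hF⟩ : ∃ F : Matrix (Fin n) (Fin n) ℝ, F = Matrix.of fun j l => e j l := ⟨_, rfl⟩
  have e1 : Matrix.of X = Matrix.of x * F := by
    ext i l
    have h := congrArg (fun v : EuclideanSpace ℝ (Fin n) => v l) (hX i)
    simpa [euclRows, Matrix.mul_apply, hF] using h
  have e2 : F * Fᵀ = 1 := by
    ext i j
    have h := (orthonormal_iff_ite.1 he) i j
    simp only [PiLp.inner_apply, RCLike.inner_apply, conj_trivial] at h
    simp [Matrix.mul_apply, hF, Matrix.one_apply, ← h, mul_comm]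
  have e3 : F.det ^ 2 = 1 := by
    rw [sq]
    simpa [Matrix.det_transpose] using congrArg Matrix.det e2
  rw [rdet, e1, Matrix.det_mul, mul_pow, e3, mul_one,
    Matrix.det_of_isLowerTriangular (Matrix.of x) (fun i j hij => htri i j hij)]
  rfl

theorem isClosed_setOf_isReduced : IsClosed {g : SLR n | IsReduced g} := by
  obtain ⟨O, hO⟩ : ∃ O : Set (Tuple n n),
      O = {e | ∀ i j, ⟪e i, e j⟫ = if i = j then (1 : ℝ) else 0} := ⟨_, rfl⟩
  have hOc : IsCompact O := by
    refine (isCompact_univ_pi fun _ : Fin n =>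
      isCompact_closedBall (0 : EuclideanSpace ℝ (Fin n)) 1).of_isClosed_subset ?_ ?_
    · rw [hO]
      simp only [Set.ofPred_forall]
      exact isClosed_iInter fun i => isClosed_iInter fun j =>
        isClosed_eq (by fun_prop) continuous_const
    · intro e he i _
      rw [hO] at he
      rw [mem_closedBall_zero_iff, norm_eq_sqrt_real_inner, he, if_pos rfl, Real.sqrt_one]
  haveI : CompactSpace O := isCompact_iff_compactSpace.1 hOc
  obtain ⟨x, hx⟩ : ∃ x : SLR n × O → Fin n → Fin n → ℝ,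
      x = fun p i j => ⟪p.2.1 j, euclRows (fun a b => p.1 a b) i⟫ := ⟨_, rfl⟩
  have hb : ∀ i, Continuous fun p : SLR n × O => euclRows (fun a b => p.1 a b) i := fun i => by
    unfold euclRows
    fun_prop
  have he : ∀ j, Continuous fun p : SLR n × O => (p.2.1 : Tuple n n) j := fun j =>
    (continuous_apply j).comp (continuous_subtype_val.comp continuous_snd)
  have hxc : ∀ i j, Continuous fun p => x p i j := fun i j => by
    rw [hx]
    exact (he j).inner (hb i)
  obtain ⟨S, hS⟩ : ∃ S : Set (SLR n × O),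
      S = {p | (∀ i j, i < j → x p i j = 0) ∧ (∀ i, 0 ≤ x p i i) ∧
        (∀ i j, j < i → |x p i j| ≤ x p j j / 2) ∧
        (∀ i j : Fin n, (j : ℕ) = (i : ℕ) + 1 → 3 / 4 * x p i i ^ 2 ≤ x p j j ^ 2) ∧
        ∀ i, euclRows (fun a b => p.1 a b) i = ∑ j, x p i j • (p.2.1 : Tuple n n) j} := ⟨_, rfl⟩
  have hSc : IsClosed S := by
    rw [hS]
    simp only [Set.ofPred_and, Set.ofPred_forall]
    refine (isClosed_iInter fun i => isClosed_iInter fun j => isClosed_iInter fun _ =>
      isClosed_eq (hxc i j) continuous_const).inter ((isClosed_iInter fun i =>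
      isClosed_le continuous_const (hxc i i)).inter ((isClosed_iInter fun i =>
      isClosed_iInter fun j => isClosed_iInter fun _ =>
      isClosed_le (hxc i j).abs ((hxc j j).div_const 2)).inter ((isClosed_iInter fun i =>
      isClosed_iInter fun j => isClosed_iInter fun _ =>
      isClosed_le (continuous_const.mul ((hxc i i).pow 2)) ((hxc j j).pow 2)).inter
      (isClosed_iInter fun i => isClosed_eq (hb i)
        (continuous_finsetSum _ fun j _ => (hxc i j).smul (he j))))))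
  convert! isClosedMap_fst_of_compactSpace S hSc
  ext g
  constructor
  · rintro ⟨e, y, ⟨heo, htri, hdiag, hrow⟩, hoff, hadj⟩
    have hmem : e ∈ O := by
      rw [hO]
      exact orthonormal_iff_ite.1 heo
    refine ⟨(g, ⟨e, hmem⟩), ?_, rfl⟩
    have hxy : x (g, ⟨e, hmem⟩) = y := by
      funext i j
      rw [hx]
      beta_reduce
      rw [hrow i, heo.inner_right_fintype]
    rw [hS, Set.mem_ofPred_eq, hxy]
    exact ⟨htri, fun i => (hdiag i).le, hoff, hadj, hrow⟩
  · rintro ⟨⟨g', ⟨e, heO⟩⟩, hp, rfl⟩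
    rw [hS] at hp
    obtain ⟨htri, hnn, hoff, hadj, hrow⟩ := hp
    rw [hO] at heO
    refine ⟨e, x (g', ⟨e, hO ▸ heO⟩), ⟨orthonormal_iff_ite.2 heO, htri, fun i => ?_, hrow⟩,
      hoff, hadj⟩
    refine lt_of_le_of_ne (hnn i) fun h => ?_
    have := rdet_sq_eq (orthonormal_iff_ite.2 heO) htri hrow
    rw [Finset.prod_eq_zero (f := fun i => x (g', ⟨e, hO ▸ heO⟩) i i) (Finset.mem_univ i)
      h.symm] at this
    exact one_ne_zero (g'.prop.symm.trans (show (g' : Matrix (Fin n) (Fin n) ℝ).det = 0 from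
      eq_zero_of_pow_eq_zero (this.trans (zero_pow two_ne_zero))))

theorem zpow_sum {ι : Type*} (s : Finset ι) (f : ι → ℤ) :
    ∏ i ∈ s, (2 : ℝ) ^ f i = (2 : ℝ) ^ ∑ i ∈ s, f i := by
  classical
  induction s using Finset.induction_on with
  | empty => simp
  | insert a s ha ih => rw [Finset.prod_insert ha, Finset.sum_insert ha, ih, zpow_add₀ two_ne_zero]

/-- The dyadic sizes which occur in the cone over the reduced matrices. -/
def goodSizes (n : ℕ) : Set (Fin n → ℤ) :=
  {k | (∑ i, k i) ≤ n ∧ ∀ i j : Fin n, (j : ℕ) = (i : ℕ) + 1 → k i ≤ k j + 1}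

theorem cone_reduced_subset :
    cone {g : SLR n | IsReduced g} ⊆
      ⋃ k : goodSizes n, (euclRows : Rows n → Tuple n n) ⁻¹' piece n fun j => (2 : ℝ) ^ k.1 j := by
  rintro X ⟨t, ⟨ht, ht'⟩, g, ⟨e, x, ⟨heo, htri, hdiag, hrow⟩, hoff, hadj⟩, rfl⟩
  obtain ⟨y, hy⟩ : ∃ y : Fin n → Fin n → ℝ, y = fun i j => t * x i j := ⟨_, rfl⟩
  have hy0 : ∀ i, 0 < y i i := fun i => by
    rw [hy]
    exact mul_pos ht (hdiag i)
  choose l hl using fun i => exists_mem_Ico_zpow (hy0 i) one_lt_two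
  have hyrow : ∀ i, euclRows (fun a b => t * g a b) i = ∑ j, y i j • e j := by
    intro i
    have e1 : euclRows (fun a b => t * g a b) i = t • euclRows (fun a b => g a b) i := by
      ext a
      simp [euclRows]
    rw [e1, hrow i, Finset.smul_sum]
    simp [hy, smul_smul]
  have hyt : ∀ i j, i < j → y i j = 0 := fun i j h => by simp [hy, htri i j h]
  have hdet : (∏ i, y i i) ≤ 1 := by
    have h1 := rdet_sq_eq heo hyt hyrow
    rw [rdet_mul_left] at h1
    have h2 := (pow_left_inj₀ (by positivity) (Finset.prod_nonneg fun i _ => (hy0 i).le)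
      two_ne_zero).1 h1
    rw [← h2]
    exact pow_le_one₀ ht.le ht'
  have hsum : (∑ i, (l i + 1)) ≤ (n : ℤ) := by
    have h1 : (2 : ℝ) ^ (∑ i, l i) ≤ 1 := by
      rw [← zpow_sum]
      exact (Finset.prod_le_prod (fun i _ => (zpow_pos two_pos _).le) fun i _ => (hl i).1).trans
        hdet
    rw [← zpow_zero (2 : ℝ)] at h1
    have h2 := (zpow_le_zpow_iff_right₀ (one_lt_two (α := ℝ))).1 h1
    rw [Finset.sum_add_distrib]
    simpa using h2
  have hstep : ∀ i j : Fin n, (j : ℕ) = (i : ℕ) + 1 → l i + 1 ≤ l j + 1 + 1 := by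
    intro i j hij
    have h1 : y i i < 2 * y j j := by
      have h := hadj i j hij
      have h2 : 3 / 4 * y i i ^ 2 ≤ y j j ^ 2 := by
        rw [hy]
        nlinarith [sq_nonneg t]
      nlinarith [hy0 i, hy0 j]
    have h2 : (2 : ℝ) ^ l i < (2 : ℝ) ^ (l j + 1 + 1) := by
      rw [zpow_add_one₀ two_ne_zero]
      linarith [(hl i).1, (hl j).2]
    have := (zpow_lt_zpow_iff_right₀ (one_lt_two (α := ℝ))).1 h2
    omega
  refine Set.mem_iUnion.2 ⟨⟨fun i => l i + 1, hsum, hstep⟩, (e, y),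
    ⟨orthonormal_iff_ite.1 heo, hyt, fun i j => ?_, fun i => ?_⟩, funext fun i => (hyrow i).symm⟩
  · show |y i j| ≤ (2 : ℝ) ^ (l j + 1)
    rcases lt_trichotomy i j with h | rfl | h
    · rw [hyt i j h, abs_zero]
      positivity
    · rw [abs_of_pos (hy0 i)]
      exact (hl i).2.le
    · have h1 : |y i j| ≤ y j j / 2 := by
        rw [hy]
        beta_reduce
        rw [abs_mul, abs_of_pos ht]
        nlinarith [hoff i j h]
      linarith [(hl j).2, hy0 j]
  · show (2 : ℝ) ^ (l i + 1) / 2 ≤ y i i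
    rw [zpow_add_one₀ two_ne_zero, mul_div_assoc, div_self two_ne_zero, mul_one]
    exact (hl i).1

/-- The parameters of a dyadic size: the deficit of the sum and the gaps. -/
def gaps {m : ℕ} (k : Fin (m + 1) → ℤ) : Fin (m + 1) → ℕ :=
  Fin.cons ((m + 1 : ℤ) - ∑ i, k i).toNat fun j : Fin m => (k j.succ - k j.castSucc + 1).toNat

theorem gaps_injOn (m : ℕ) : InjOn (gaps (m := m)) (goodSizes (m + 1)) := by
  intro k hk l hl h
  have h0 := congrFun h 0
  simp only [gaps, Fin.cons_zero] at h0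
  have hs : ∀ j : Fin m, k j.succ - k j.castSucc = l j.succ - l j.castSucc := by
    intro j
    have hj := congrFun h j.succ
    simp only [gaps, Fin.cons_succ] at hj
    have a1 := hk.2 j.castSucc j.succ (by simp)
    have a2 := hl.2 j.castSucc j.succ (by simp)
    omega
  have hconst : ∀ i : Fin (m + 1), k i - l i = k 0 - l 0 := by
    intro i
    induction i using Fin.induction with
    | zero => rfl
    | succ j ih => linarith [hs j]
  have hsum : ∑ i, k i = ∑ i, l i := by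
    have a1 := hk.1
    have a2 := hl.1
    push_cast at a1 a2
    omega
  have h00 : k 0 - l 0 = 0 := by
    have e : ∑ i, (k i - l i) = ((m + 1 : ℕ) : ℤ) * (k 0 - l 0) := by
      simp [Finset.sum_congr rfl fun i (_ : i ∈ Finset.univ) => hconst i, mul_comm]
      ring
    rw [Finset.sum_sub_distrib, hsum, sub_self, eq_comm, mul_eq_zero] at e
    exact e.resolve_left (by positivity)
  exact funext fun i => sub_eq_zero.1 ((hconst i).trans h00)

theorem sum_exponent (m : ℕ) (k : Fin (m + 1) → ℤ) :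
    (∑ j : Fin (m + 1), k j * (2 * ((m + 1 : ℤ) - j) - 1)) =
      (m + 1 : ℤ) * ∑ j, k j -
        ∑ j : Fin m, ((j : ℤ) + 1) * ((m : ℤ) - j) * (k j.succ - k j.castSucc) := by
  have e1 : ∑ j : Fin m, ((j : ℤ) + 1) * ((m : ℤ) - j) * k j.succ =
      ∑ i : Fin (m + 1), (i : ℤ) * ((m + 1 : ℤ) - i) * k i := by
    rw [Fin.sum_univ_succ]
    simp
  have e2 : ∑ j : Fin m, ((j : ℤ) + 1) * ((m : ℤ) - j) * k j.castSucc =
      ∑ i : Fin (m + 1), ((i : ℤ) + 1) * ((m : ℤ) - i) * k i := by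
    rw [Fin.sum_univ_castSucc]
    simp
  simp only [mul_sub _ (k _) (k _), Finset.sum_sub_distrib, e1, e2, Finset.mul_sum]
  rw [← Finset.sum_sub_distrib, ← Finset.sum_sub_distrib]
  exact Finset.sum_congr rfl fun i _ => by ring

theorem volume_good_le (m : ℕ) : ∃ L : ℕ, ∀ k ∈ goodSizes (m + 1),
    volume (piece (m + 1) fun j => (2 : ℝ) ^ k j) ≤
      ENNReal.ofReal (2 ^ L) * (2⁻¹ : ℝ≥0∞) ^ ∑ i, gaps k i := by
  refine ⟨2 * (m + 1) * (m + 1) + ∑ j : Fin m, (j + 1) * (m - j), fun k hk => ?_⟩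
  have h := volume_piece_le (m + 1) 0 (fun j => (2 : ℝ) ^ k j) fun j => zpow_pos two_pos _
  simp only [Nat.add_zero] at h
  refine h.trans ?_
  have e : ((2 : ℝ≥0∞))⁻¹ = ENNReal.ofReal (2⁻¹ : ℝ) := by
    rw [ENNReal.ofReal_inv_of_pos two_pos, ENNReal.ofReal_ofNat]
  rw [e, ← ENNReal.ofReal_pow (by norm_num), ← ENNReal.ofReal_mul (by positivity)]
  refine ENNReal.ofReal_le_ofReal ?_
  rw [← zpow_natCast (2 : ℝ) ((m + 1) * (m + 1)), ← zpow_natCast (2 : ℝ) (2 * _ * _ + _),
    inv_pow, ← zpow_natCast (2 : ℝ) (∑ i, gaps k i), ← _root_.zpow_neg, ← zpow_add₀ two_ne_zero]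
  simp only [← zpow_natCast, ← _root_.zpow_mul]
  rw [zpow_sum, ← zpow_add₀ two_ne_zero]
  refine zpow_le_zpow_right₀ one_le_two ?_
  have e2 : ∑ j : Fin (m + 1), k j * ((m + 1 - 1 - (j : ℕ) + (m + 1 - (j : ℕ)) : ℕ) : ℤ) =
      ∑ j : Fin (m + 1), k j * (2 * ((m + 1 : ℤ) - j) - 1) := by
    refine Finset.sum_congr rfl fun j _ => ?_
    congr 1
    have := j.isLt
    omega
  rw [e2, sum_exponent, Fin.sum_univ_succ (f := gaps k)]
  simp only [gaps, Fin.cons_zero, Fin.cons_succ, Nat.cast_add, Nat.cast_sum]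
  have hs : ((((m + 1 : ℤ) - ∑ i, k i).toNat : ℕ) : ℤ) = (m + 1 : ℤ) - ∑ i, k i :=
    Int.toNat_of_nonneg (by have := hk.1; push_cast at this; linarith)
  have hd : ∀ j : Fin m, (((k j.succ - k j.castSucc + 1).toNat : ℕ) : ℤ) ≤
      ((j : ℤ) + 1) * ((m : ℤ) - j) * (k j.succ - k j.castSucc) +
        (((j + 1) * (m - j) : ℕ) : ℤ) := by
    intro j
    have h1 := hk.2 j.castSucc j.succ (by simp)
    have h2 := j.isLt
    rw [Int.toNat_of_nonneg (by omega), Nat.cast_mul, Nat.cast_sub h2.le]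
    push_cast
    nlinarith [mul_nonneg (show (0 : ℤ) ≤ k j.succ - k j.castSucc + 1 by omega)
      (show (0 : ℤ) ≤ ((j : ℤ) + 1) * ((m : ℤ) - j) - 1 by nlinarith)]
  have hd' := Finset.sum_le_sum fun j (_ : j ∈ Finset.univ) => hd j
  rw [Finset.sum_add_distrib] at hd'
  have hm1 : (0 : ℤ) ≤ (m : ℤ) * ((m + 1 : ℤ) - ∑ i, k i) :=
    mul_nonneg (by positivity) (hs ▸ Int.natCast_nonneg _)
  rw [hs]
  push_cast at hd' ⊢
  nlinarith

theorem tsum_geometric_pi : ∀ d : ℕ, ∑' f : Fin d → ℕ, (2⁻¹ : ℝ≥0∞) ^ (∑ i, f i) = 2 ^ d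
  | 0 => by rw [tsum_eq_single default fun f hf => absurd (Subsingleton.elim f default) hf]; simp
  | d + 1 => by
    rw [← (Fin.consEquiv fun _ : Fin (d + 1) => ℕ).tsum_eq, ENNReal.tsum_prod']
    simp only [Fin.consEquiv_apply, Fin.sum_univ_succ, Fin.cons_zero, Fin.cons_succ, pow_add,
      ENNReal.tsum_mul_left, tsum_geometric_pi d, ENNReal.tsum_mul_right, ENNReal.tsum_geometric]
    simp [pow_succ, mul_comm]

variable [MeasurableSpace (SLR n)] [BorelSpace (SLR n)]

/-- **The Siegel set has finite measure.** -/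
theorem coneMeasure_reduced_lt_top [NeZero n] : coneMeasure n {g | IsReduced g} < ∞ := by
  rw [coneMeasure_apply isClosed_setOf_isReduced.measurableSet]
  refine (measure_mono cone_reduced_subset).trans_lt ((measure_iUnion_le _).trans_lt ?_)
  have hmp : MeasurePreserving (euclRows : Rows n → Tuple n n) volume volume :=
    volume_preserving_pi (f := fun _ => WithLp.toLp 2) fun _ => PiLp.volume_preserving_toLp _
  simp only [hmp.measure_preimage (isCompact_piece _).measurableSet.nullMeasurableSet]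
  obtain ⟨m, rfl⟩ : ∃ m, n = m + 1 := ⟨n - 1, by have := NeZero.ne n; omega⟩
  obtain ⟨L, hL⟩ := volume_good_le m
  calc ∑' k : goodSizes (m + 1), volume (piece (m + 1) fun j => (2 : ℝ) ^ k.1 j)
      ≤ ∑' k : goodSizes (m + 1), ENNReal.ofReal (2 ^ L) * (2⁻¹ : ℝ≥0∞) ^ ∑ i, gaps k.1 i :=
        ENNReal.tsum_le_tsum fun k => hL k.1 k.2
    _ ≤ ENNReal.ofReal (2 ^ L) * ∑' f : Fin (m + 1) → ℕ, (2⁻¹ : ℝ≥0∞) ^ ∑ i, f i := by
        rw [ENNReal.tsum_mul_left]
        exact mul_le_mul' le_rfl (ENNReal.tsum_comp_le_tsum_of_injective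
          (fun a b h => Subtype.ext (gaps_injOn m a.2 b.2 h))
          fun f : Fin (m + 1) → ℕ => (2⁻¹ : ℝ≥0∞) ^ ∑ i, f i)
    _ < ∞ := by
        rw [tsum_geometric_pi]
        exact ENNReal.mul_lt_top ENNReal.ofReal_lt_top (ENNReal.pow_lt_top ENNReal.ofNat_lt_top)

end FA.SLnLattice

end
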