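import Fermat.Agent.SLnLattice.Covolume
import Mathlib.MeasureTheory.Group.FundamentalDomain
import Mathlib.MeasureTheory.Group.Measure

/-!
# A fundamental domain for the integral special linear group

The integral matrices form a countable discrete subgroup, so they have a measurable fundamental
domain; its measure is at most that of the Siegel set, whose translates cover the group.
-/

set_option autoImplicit false

noncomputable section

open MeasureTheory Matrix Set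
open scoped ENNReal Pointwise

namespace FA.SLnLattice

variable {n : ℕ}

/-- The integral matrices in the real special linear group. -/
abbrev Gamma (n : ℕ) : Subgroup (SLR n) :=
  (Matrix.SpecialLinearGroup.map (n := Fin n) (Int.castRingHom ℝ)).range

instance instCountableGamma : Countable (Gamma n) := by
  haveI : Countable (Matrix (Fin n) (Fin n) ℤ) :=
    inferInstanceAs (Countable (Fin n → Fin n → ℤ))
  haveI : Countable (Matrix.SpecialLinearGroup (Fin n) ℤ) :=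
    inferInstanceAs (Countable {A : Matrix (Fin n) (Fin n) ℤ // A.det = 1})
  refine Set.Countable.to_subtype ?_
  exact Set.countable_range _

theorem exists_nhds_separated :
    ∃ U : Set (SLR n), IsOpen U ∧ 1 ∈ U ∧
      ∀ u ∈ U, ∀ v ∈ U, u * v⁻¹ ∈ Gamma n → u = v := by
  obtain ⟨W, hW⟩ : ∃ W : Set (SLR n),
      W = {g | ∀ i j, |g i j - (1 : Matrix (Fin n) (Fin n) ℝ) i j| < 1} := ⟨_, rfl⟩
  have hWo : IsOpen W := by
    rw [hW]
    simp only [Set.ofPred_forall]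
    exact isOpen_iInter_of_finite fun i => isOpen_iInter_of_finite fun j =>
      isOpen_lt ((Continuous.sub (by fun_prop) continuous_const).abs) continuous_const
  have h1 : ((1, 1) : SLR n × SLR n) ∈ (fun p : SLR n × SLR n => p.1 * p.2⁻¹) ⁻¹' W := by
    simp [hW]
  obtain ⟨U, V, hU, hV, hU1, hV1, hUV⟩ := isOpen_prod_iff.1
    (hWo.preimage (continuous_fst.mul continuous_snd.inv)) _ _ h1
  refine ⟨U ∩ V, hU.inter hV, ⟨hU1, hV1⟩, fun u hu v hv hg => ?_⟩
  have hmem := hUV (Set.mk_mem_prod hu.1 hv.2)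
  rw [Set.mem_preimage] at hmem
  obtain ⟨γ, hγ⟩ := hg
  rw [← mul_inv_eq_one, ← hγ]
  refine Subtype.ext (Matrix.ext fun i j => ?_)
  rw [hW, Set.mem_ofPred_eq] at hmem
  have h : |((u * v⁻¹ : SLR n) i j) - (1 : Matrix (Fin n) (Fin n) ℝ) i j| < 1 := hmem i j
  rw [← hγ] at h
  show ((γ i j : ℤ) : ℝ) = (1 : Matrix (Fin n) (Fin n) ℝ) i j
  change |((γ i j : ℤ) : ℝ) - (1 : Matrix (Fin n) (Fin n) ℝ) i j| < 1 at h
  rw [Matrix.one_apply] at h ⊢
  split_ifs at h ⊢
  · have h' : |γ i j - 1| < 1 := by exact_mod_cast h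
    rw [abs_lt] at h'
    norm_cast
    omega
  · have h' : |γ i j| < 1 := by rw [sub_zero] at h; exact_mod_cast h
    rw [abs_lt] at h'
    norm_cast
    omega

theorem exists_smul_reduced (g : SLR n) : ∃ γ : Gamma n, γ • g ∈ {g : SLR n | IsReduced g} := by
  obtain ⟨γ, hγ⟩ := exists_reduced_SL g
  exact ⟨⟨_, γ, rfl⟩, hγ⟩

variable [MeasurableSpace (SLR n)] [BorelSpace (SLR n)]

theorem exists_fundamentalDomain :
    ∃ E : Set (SLR n), MeasurableSet E ∧ ∀ x, ∃! γ : Gamma n, γ • x ∈ E := by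
  obtain ⟨U, hU, hU1, hsep⟩ := exists_nhds_separated (n := n)
  obtain ⟨d, hd⟩ := TopologicalSpace.exists_dense_seq (SLR n)
  obtain ⟨P, hP⟩ : ∃ P : ℕ → Set (SLR n), P = fun k => (fun x => x * (d k)⁻¹) ⁻¹' U := ⟨_, rfl⟩
  obtain ⟨E, hE⟩ : ∃ E : ℕ → Set (SLR n),
      E = fun k => P k ∩ ⋂ j < k, ⋂ γ : Gamma n, ((γ • ·) ⁻¹' P j)ᶜ := ⟨_, rfl⟩
  have hPo : ∀ k, IsOpen (P k) := fun k => hP ▸ hU.preimage (continuous_mul_const _)
  have hEm : ∀ k, MeasurableSet (E k) := fun k => hE ▸ (hPo k).measurableSet.inter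
    (MeasurableSet.iInter fun j => MeasurableSet.iInter fun _ => MeasurableSet.iInter fun γ =>
      ((hPo j).preimage (continuous_const_mul (γ : SLR n))).measurableSet.compl)
  refine ⟨⋃ k, E k, MeasurableSet.iUnion hEm, fun x => ?_⟩
  have hcov : ∃ k, ∃ γ : Gamma n, γ • x ∈ P k := by
    obtain ⟨k, hk⟩ := hd.exists_mem_open (s := (fun y => x * y⁻¹) ⁻¹' U)
      (hU.preimage (continuous_const.mul continuous_inv)) ⟨x, by simpa using hU1⟩
    exact ⟨k, 1, by rw [one_smul, hP]; exact hk⟩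
  classical
  obtain ⟨γ, hγ⟩ := Nat.find_spec hcov
  have hmemE : γ • x ∈ E (Nat.find hcov) := by
    rw [hE]
    refine ⟨hγ, Set.mem_iInter₂.2 fun j hj => Set.mem_iInter.2 fun δ hδ =>
      Nat.find_min hcov hj ⟨δ * γ, ?_⟩⟩
    rw [mul_smul]
    exact hδ
  refine ⟨γ, Set.mem_iUnion.2 ⟨_, hmemE⟩, fun δ hδ => ?_⟩
  obtain ⟨k, hk⟩ := Set.mem_iUnion.1 hδ
  rw [hE] at hk
  have hkeq : k = Nat.find hcov := by
    refine le_antisymm (not_lt.1 fun hlt => ?_) (Nat.find_min' hcov ⟨δ, hk.1⟩)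
    have := Set.mem_iInter.1 (Set.mem_iInter₂.1 hk.2 _ hlt) (γ * δ⁻¹)
    exact this (by rw [Set.mem_preimage, smul_smul, inv_mul_cancel_right]; exact hγ)
  subst hkeq
  have h1 := hk.1
  generalize hk0 : Nat.find hcov = k at h1 hγ ⊢
  simp only [hP, Set.mem_preimage] at h1 hγ
  have h2 : (δ • x) * (d k)⁻¹ = (γ • x) * (d k)⁻¹ := by
    refine hsep _ h1 _ hγ ?_
    have e : δ • x * (d k)⁻¹ * (γ • x * (d k)⁻¹)⁻¹ =
        ((δ * γ⁻¹ : Gamma n) : SLR n) := by
      show (δ : SLR n) * x * _ * ((γ : SLR n) * x * _)⁻¹ = (δ : SLR n) * (γ : SLR n)⁻¹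
      group
    rw [e]
    exact (δ * γ⁻¹).2
  exact Subtype.ext (mul_right_cancel (b := x) (mul_right_cancel h2))

/-- **The integral special linear group has finite covolume.** -/
theorem exists_fundamentalDomain_finite [NeZero n] (μ : Measure (SLR n)) [μ.IsHaarMeasure] :
    ∃ E : Set (SLR n), MeasurableSet E ∧ IsFundamentalDomain (Gamma n) E μ ∧ 0 < μ E ∧ μ E < ∞ := by
  haveI : MeasurableConstSMul (Gamma n) (SLR n) :=
    ⟨fun γ => (continuous_const_mul (γ : SLR n)).measurable⟩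
  haveI : SMulInvariantMeasure (Gamma n) (SLR n) μ :=
    ⟨fun γ s _ => measure_preimage_mul μ (γ : SLR n) s⟩
  obtain ⟨E, hEm, hEu⟩ := exists_fundamentalDomain (n := n)
  have hE : IsFundamentalDomain (Gamma n) E μ :=
    IsFundamentalDomain.mk' hEm.nullMeasurableSet hEu
  obtain ⟨c, -, hc⟩ := exists_eq_smul_coneMeasure μ
  have hT : μ {g | IsReduced g} < ∞ := by
    rw [hc, Measure.smul_apply, ENNReal.smul_def, smul_eq_mul]
    exact ENNReal.mul_lt_top ENNReal.coe_lt_top coneMeasure_reduced_lt_top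
  refine ⟨E, hEm, hE, pos_iff_ne_zero.2 fun h0 => ?_, lt_of_le_of_lt ?_ hT⟩
  · have h1 := hE.measure_eq_tsum (Set.univ : Set (SLR n))
    simp only [smul_set_univ, Set.univ_inter, h0, tsum_zero] at h1
    exact (isOpen_univ.measure_pos μ ⟨1, trivial⟩).ne' h1
  · rw [hE.measure_eq_tsum {g | IsReduced g}]
    refine (measure_mono (t := ⋃ γ : Gamma n, γ • {g | IsReduced g} ∩ E) ?_).trans
      (measure_iUnion_le _)
    intro x hx
    obtain ⟨γ, hγ⟩ := exists_smul_reduced x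
    exact Set.mem_iUnion.2 ⟨γ⁻¹, ⟨_, hγ, inv_smul_smul γ x⟩, hx⟩

omit [MeasurableSpace (SLR n)] [BorelSpace (SLR n)] in
/-- **No compact set meets every orbit.** -/
theorem not_cocompact (hn : 2 ≤ n) (K : Set (SLR n)) (hK : IsCompact K) :
    ∃ g : SLR n, ∀ γ ∈ Gamma n, γ * g ∉ K := by
  obtain ⟨m, rfl⟩ : ∃ m, n = m + 2 := ⟨n - 2, by omega⟩
  obtain ⟨C, hC⟩ := (hK.image_of_continuousOn
    (f := fun k : SLR (m + 2) => ∑ j, |(k⁻¹) 0 j|) (Continuous.continuousOn (by fun_prop))).bddAbove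
  obtain ⟨t, ht⟩ : ∃ t : ℝ, t = (max C 0 + 1)⁻¹ := ⟨_, rfl⟩
  have ht0 : 0 < t := by rw [ht]; positivity
  obtain ⟨d, hd⟩ : ∃ d : Fin (m + 2) → ℝ, d = Fin.cons t (Fin.cons t⁻¹ fun _ => 1) := ⟨_, rfl⟩
  have hdet : (Matrix.diagonal d).det = 1 := by
    rw [Matrix.det_diagonal, hd, Fin.prod_univ_succ, Fin.prod_univ_succ]
    simp [ht0.ne']
  refine ⟨⟨Matrix.diagonal d, hdet⟩, fun γ hγ hk => ?_⟩
  obtain ⟨W, hW⟩ := (Gamma (m + 2)).inv_mem hγ
  obtain ⟨k, hkdef⟩ : ∃ k : SLR (m + 2), k = γ * ⟨Matrix.diagonal d, hdet⟩ := ⟨_, rfl⟩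
  rw [← hkdef] at hk
  have hC' : ∀ j, |(k⁻¹) 0 j| ≤ max C 0 := fun j =>
    ((Finset.single_le_sum (f := fun j => |(k⁻¹) 0 j|) (fun _ _ => abs_nonneg _)
      (Finset.mem_univ j)).trans (hC ⟨k, hk, rfl⟩)).trans (le_max_left _ _)
  have hrow : ∀ j, |(W 0 j : ℝ)| < 1 := by
    intro j
    have e : HMul.hMul (α := SLR (m + 2)) (β := SLR (m + 2)) ⟨Matrix.diagonal d, hdet⟩ k⁻¹ =
        γ⁻¹ := by rw [hkdef]; group
    have e' : (W 0 j : ℝ) = t * (k⁻¹) 0 j := by
      have h := congrArg (fun g : SLR (m + 2) => g 0 j) (e.trans hW.symm)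
      simp [Matrix.SpecialLinearGroup.coe_mul, Matrix.diagonal_mul, hd] at h
      rw [← h]
      simp [Matrix.SpecialLinearGroup.coe_inv]
    rw [e', abs_mul, abs_of_pos ht0]
    calc t * |(k⁻¹) 0 j| ≤ t * max C 0 := mul_le_mul_of_nonneg_left (hC' j) ht0.le
      _ < t * (max C 0 + 1) := mul_lt_mul_of_pos_left (lt_add_one _) ht0
      _ = 1 := by rw [ht]; field_simp
  have hzero : ∀ j, W 0 j = 0 := fun j => Int.abs_lt_one_iff.1 (by exact_mod_cast hrow j)
  exact one_ne_zero (W.prop.symm.trans (Matrix.det_eq_zero_of_row_eq_zero 0 hzero))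

theorem measure_univ_eq_top (hn : 2 ≤ n) (μ : Measure (SLR n)) [μ.IsHaarMeasure] :
    μ Set.univ = ∞ := by
  haveI : NoncompactSpace (SLR n) := ⟨fun h => by
    obtain ⟨g, hg⟩ := not_cocompact hn Set.univ h
    exact hg 1 (one_mem _) trivial⟩
  exact measure_univ_of_isMulLeftInvariant μ

end FA.SLnLattice

end
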