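import Fermat.Agent.Reduction.Hermite
import Fermat.Agent.SLnLattice.Cone
import Mathlib.Analysis.InnerProductSpace.GramMatrix
import Mathlib.Analysis.InnerProductSpace.PiL2

/-!
# Hermite reduction of bases

Every basis of a lattice in a real inner product space can be changed by a unimodular integer
matrix into one whose coordinates in an orthonormal frame form a lower triangular matrix `x` with
`|x i j| ≤ x j j / 2` and `3 / 4 * x j j ^ 2 ≤ x (j + 1) (j + 1) ^ 2`.
-/

set_option autoImplicit false

noncomputable section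

open Matrix Finset
open scoped RealInnerProductSpace

namespace FA.SLnLattice

open FA.Reduction (quad Primitive exists_minimum exists_primitive_smul exists_unimodular_col)

variable {n : ℕ} {V : Type*} [NormedAddCommGroup V] [InnerProductSpace ℝ V]

/-- The tuple obtained from `b` by an integer matrix. -/
def act (U : Matrix (Fin n) (Fin n) ℤ) (b : Fin n → V) (i : Fin n) : V := ∑ j, (U i j : ℝ) • b j

theorem act_mul (U W : Matrix (Fin n) (Fin n) ℤ) (b : Fin n → V) :
    act (U * W) b = act U (act W b) := by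
  funext i
  simp only [act, Matrix.mul_apply, Int.cast_sum, Int.cast_mul, Finset.sum_smul, Finset.smul_sum,
    smul_smul]
  exact Finset.sum_comm

theorem comb_act (z : Fin n → ℤ) (W : Matrix (Fin n) (Fin n) ℤ) (b : Fin n → V) :
    ∑ i, (z i : ℝ) • act W b i = ∑ j, ((z ᵥ* W) j : ℝ) • b j := by
  simp only [act, Matrix.vecMul, dotProduct, Int.cast_sum, Int.cast_mul, Finset.sum_smul,
    Finset.smul_sum, smul_smul]
  exact Finset.sum_comm

theorem linearIndependent_act {U : Matrix (Fin n) (Fin n) ℤ} (hU : U.det ≠ 0) {b : Fin n → V}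
    (hb : LinearIndependent ℝ b) : LinearIndependent ℝ (act U b) := by
  rw [Fintype.linearIndependent_iff] at hb ⊢
  intro c hc
  have h : ∀ j, (c ᵥ* U.map (fun z : ℤ => (z : ℝ))) j = 0 := hb _ (by
    rw [← hc]
    simp only [act, Matrix.vecMul, dotProduct, Matrix.map_apply, Finset.sum_smul, Finset.smul_sum,
      smul_smul]
    exact Finset.sum_comm)
  have hd : (U.map fun z : ℤ => (z : ℝ)).det ≠ 0 := by
    rw [show (U.map fun z : ℤ => (z : ℝ)) = (Int.castRingHom ℝ).mapMatrix U from rfl,
      ← RingHom.map_det, eq_intCast, ne_eq, Int.cast_eq_zero]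
    exact hU
  exact fun i => congrFun (Matrix.eq_zero_of_vecMul_eq_zero hd (funext h)) i

/-- Coordinates of a tuple in an orthonormal frame forming a lower triangular matrix with
positive diagonal. -/
def Frame (e : Fin n → V) (x : Fin n → Fin n → ℝ) (b : Fin n → V) : Prop :=
  Orthonormal ℝ e ∧ (∀ i j, i < j → x i j = 0) ∧ (∀ i, 0 < x i i) ∧ ∀ i, b i = ∑ j, x i j • e j

/-- The inequalities defining a Siegel set. -/
def Siegel (x : Fin n → Fin n → ℝ) : Prop :=
  (∀ i j, j < i → |x i j| ≤ x j j / 2) ∧
    ∀ i j : Fin n, (j : ℕ) = (i : ℕ) + 1 → 3 / 4 * x i i ^ 2 ≤ x j j ^ 2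

theorem quad_gram (b : Fin n → V) (v : Fin n → ℝ) :
    quad (Matrix.gram ℝ b) v = ‖∑ i, v i • b i‖ ^ 2 := by
  rw [← real_inner_self_eq_norm_sq, ← Matrix.star_dotProduct_gram_mulVec b v v, star_trivial]
  rfl

theorem exists_shortest {m : ℕ} {b : Fin (m + 1) → V} (hb : LinearIndependent ℝ b) :
    ∃ W : Matrix (Fin (m + 1)) (Fin (m + 1)) ℤ, IsUnit W.det ∧
      ∀ z : Fin (m + 1) → ℤ, z ≠ 0 → ‖act W b 0‖ ≤ ‖∑ i, (z i : ℝ) • act W b i‖ := by
  have hP := Matrix.posDef_gram_of_linearIndependent hb
  obtain ⟨v, hv, hmin⟩ := exists_minimum hP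
  obtain ⟨g, w, hg, hw, rfl⟩ := exists_primitive_smul hv
  obtain ⟨U, hU, hcol⟩ := exists_unimodular_col hw
  have hUt : IsUnit Uᵀ.det := by rwa [Matrix.det_transpose]
  refine ⟨Uᵀ, hUt, fun z hz => ?_⟩
  rw [comb_act]
  have hz' : z ᵥ* Uᵀ ≠ 0 := fun h => hz (Matrix.eq_zero_of_vecMul_eq_zero hUt.ne_zero h)
  have h := hmin _ hz'
  rw [quad_gram, quad_gram] at h
  have hg1 : (1 : ℝ) ≤ |(g : ℝ)| := by
    have := Int.one_le_abs hg
    exact_mod_cast this
  have e : ∑ i, (((g • w) i : ℤ) : ℝ) • b i = (g : ℝ) • act Uᵀ b 0 := by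
    rw [act, Finset.smul_sum]
    refine Finset.sum_congr rfl fun i _ => ?_
    rw [smul_smul, Matrix.transpose_apply, hcol]
    simp
  rw [e, norm_smul, Real.norm_eq_abs] at h
  have h2 := abs_le_of_sq_le_sq' h (norm_nonneg _)
  exact le_trans (le_mul_of_one_le_left (norm_nonneg _) hg1) h2.2

/-- **Hermite reduction.** -/
theorem exists_reduced : ∀ (n : ℕ) (b : Fin n → V), LinearIndependent ℝ b →
    ∃ (U : Matrix (Fin n) (Fin n) ℤ) (e : Fin n → V) (x : Fin n → Fin n → ℝ),
      IsUnit U.det ∧ Frame e x (act U b) ∧ Siegel x ∧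
        ∀ i, e i ∈ Submodule.span ℝ (Set.range b) := by
  intro n
  induction n with
  | zero =>
    intro b _
    exact ⟨1, fun i => i.elim0, fun i => i.elim0, by rw [Matrix.det_one]; exact isUnit_one,
      ⟨⟨fun i => i.elim0, fun i => i.elim0⟩, fun i => i.elim0, fun i => i.elim0, fun i => i.elim0⟩,
      ⟨fun i => i.elim0, fun i => i.elim0⟩, fun i => i.elim0⟩
  | succ n ih =>
    intro b hb
    obtain ⟨W, hW, hmin⟩ := exists_shortest hb
    obtain ⟨c, hc⟩ : ∃ c, c = act W b := ⟨_, rfl⟩
    rw [← hc] at hmin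
    have hcli : LinearIndependent ℝ c := hc ▸ linearIndependent_act hW.ne_zero hb
    have ha : c 0 ≠ 0 := hcli.ne_zero 0
    obtain ⟨r, hr⟩ : ∃ r, r = ‖c 0‖ := ⟨_, rfl⟩
    have hr0 : 0 < r := hr ▸ norm_pos_iff.2 ha
    obtain ⟨u, hu⟩ : ∃ u, u = r⁻¹ • c 0 := ⟨_, rfl⟩
    have hcu : c 0 = r • u := by rw [hu, smul_smul, mul_inv_cancel₀ hr0.ne', one_smul]
    have huu : ⟪u, u⟫ = 1 := by
      rw [real_inner_self_eq_norm_sq, hu, norm_smul, norm_inv, Real.norm_eq_abs, abs_of_pos hr0,
        ← hr, inv_mul_cancel₀ hr0.ne', one_pow]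
    obtain ⟨c', hc'⟩ : ∃ c' : Fin n → V, c' = fun i => c i.succ - ⟪u, c i.succ⟫ • u := ⟨_, rfl⟩
    have horth : ∀ y ∈ Submodule.span ℝ (Set.range c'), ⟪u, y⟫ = 0 := by
      intro y hy
      induction hy using Submodule.span_induction with
      | mem y hy =>
        obtain ⟨i, rfl⟩ := hy
        rw [hc', inner_sub_right, real_inner_smul_right, huu, mul_one, sub_self]
      | zero => exact inner_zero_right u
      | add y z _ _ h1 h2 => rw [inner_add_right, h1, h2, add_zero]
      | smul a y _ h1 => rw [real_inner_smul_right, h1, mul_zero]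
    have hli' : LinearIndependent ℝ c' := by
      rw [Fintype.linearIndependent_iff] at hcli ⊢
      intro a ha' i
      refine hcli (Fin.cons (-(r⁻¹ * ∑ j, a j * ⟪u, c j.succ⟫)) a) ?_ i.succ
      rw [Fin.sum_univ_succ, Fin.cons_zero]
      simp only [Fin.cons_succ]
      rw [← ha', hc', neg_smul, mul_comm, ← smul_smul, ← hu, Finset.sum_smul]
      simp only [smul_sub, Finset.sum_sub_distrib, smul_smul]
      abel
    obtain ⟨U, e, x, hU, ⟨heo, htri, hdiag, hex⟩, ⟨hoff, hadj⟩, hespan⟩ := ih c' hli'
    obtain ⟨β, hβ⟩ : ∃ β : Fin n → ℝ, β = fun i => ⟪u, act U (fun j => c j.succ) i⟫ := ⟨_, rfl⟩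
    obtain ⟨k, hk⟩ : ∃ k : Fin n → ℤ, k = fun i => round (β i / r) := ⟨_, rfl⟩
    obtain ⟨M, hM⟩ : ∃ M : Matrix (Fin (n + 1)) (Fin (n + 1)) ℤ,
        M = Matrix.of (Fin.cons (Pi.single 0 1) fun i => Fin.cons (-k i) (U i)) := ⟨_, rfl⟩
    have hMdet : M.det = U.det := by
      rw [Matrix.det_succ_row_zero, Finset.sum_eq_single (0 : Fin (n + 1))
        (fun j _ hj => by rw [hM, Matrix.of_apply, Fin.cons_zero, Pi.single_eq_of_ne hj]; simp)
        fun h => absurd (Finset.mem_univ _) h]
      have e1 : M.submatrix Fin.succ (Fin.succAbove 0) = U := by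
        ext i j
        simp [hM]
      rw [e1, hM]
      simp
    have hu' : ∀ y : Fin n, ⟪u, e y⟫ = 0 := fun y => horth _ (hespan y)
    have hrow0 : act M c 0 = r • u := by
      rw [act, Finset.sum_eq_single (0 : Fin (n + 1))
        (fun j _ hj => by rw [hM, Matrix.of_apply, Fin.cons_zero, Pi.single_eq_of_ne hj]; simp)
        fun h => absurd (Finset.mem_univ _) h, hM, Matrix.of_apply, Fin.cons_zero,
        Pi.single_eq_same, Int.cast_one, one_smul, hcu]
    have hrows : ∀ i, act M c i.succ = (β i - k i * r) • u + ∑ j, x i j • e j := by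
      intro i
      rw [act, Fin.sum_univ_succ, ← hex i, hcu]
      simp only [act, hM, Matrix.of_apply, Fin.cons_succ, Fin.cons_zero, Int.cast_neg, hc', hβ,
        smul_sub, Finset.sum_sub_distrib, inner_sum, real_inner_smul_right, smul_smul,
        sub_smul, Finset.sum_smul, neg_mul, neg_smul]
      abel
    refine ⟨M * W, Fin.cons u e,
      Fin.cons (Pi.single 0 r) fun i => Fin.cons (β i - k i * r) (x i), ?_, ⟨?_, ?_, ?_, ?_⟩,
      ⟨?_, ?_⟩, ?_⟩
    · rw [Matrix.det_mul, hMdet]
      exact hU.mul hW
    · rw [orthonormal_iff_ite] at heo ⊢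
      intro i j
      refine Fin.cases ?_ (fun i' => ?_) i
      · refine Fin.cases ?_ (fun j' => ?_) j
        · simp only [Fin.cons_zero]
          rw [huu]
          simp
        · simp [hu', (Fin.succ_ne_zero j').symm]
      · refine Fin.cases ?_ (fun j' => ?_) j
        · simp [real_inner_comm u, hu']
        · simp [heo]
    · intro i j hij
      induction j using Fin.cases with
      | zero => exact absurd hij (Fin.not_lt_zero i)
      | succ j =>
        induction i using Fin.cases with
        | zero => simp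
        | succ i => simpa using htri i j (Fin.succ_lt_succ_iff.1 hij)
    · intro i
      induction i using Fin.cases with
      | zero => simpa using hr0
      | succ i => simpa using hdiag i
    · intro i
      rw [act_mul, ← hc, Fin.sum_univ_succ]
      induction i using Fin.cases with
      | zero => simp [hrow0]
      | succ i => simp [hrows]
    · intro i j hji
      induction i using Fin.cases with
      | zero => exact absurd hji (Fin.not_lt_zero j)
      | succ i =>
        induction j using Fin.cases with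
        | zero =>
          have h1 := abs_sub_round (β i / r)
          simp only [Fin.cons_succ, Fin.cons_zero, Pi.single_eq_same]
          rw [show β i - k i * r = (β i / r - k i) * r by field_simp, abs_mul, abs_of_pos hr0, hk]
          nlinarith
        | succ j => simpa using hoff i j (Fin.succ_lt_succ_iff.1 hji)
    · intro i j hij
      induction j using Fin.cases with
      | zero => simp at hij
      | succ j =>
        induction i using Fin.cases with
        | succ i =>
          simp only [Fin.cons_succ]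
          exact hadj i j (by simpa using hij)
        | zero =>
          have hj : (j : ℕ) = 0 := by simpa using hij
          have hz : (M j.succ) ≠ 0 := fun h => hU.ne_zero (hMdet ▸ Matrix.det_eq_zero_of_row_eq_zero
            j.succ fun l => congrFun h l)
          have h1 : ‖c 0‖ ≤ ‖act M c j.succ‖ := hmin _ hz
          have hsum : ∑ l, x j l • e l = x j j • e j := by
            refine Finset.sum_eq_single j (fun l _ hl => ?_) fun h => absurd (Finset.mem_univ _) h
            rw [htri j l (Fin.lt_def.2 (by have := Fin.val_ne_iff.2 hl; omega)), zero_smul]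
          have h2 : ‖act M c j.succ‖ ^ 2 = (β j - k j * r) ^ 2 + x j j ^ 2 := by
            rw [hrows, hsum, norm_add_sq_real, real_inner_smul_left, real_inner_smul_right, hu',
              norm_smul, norm_smul, heo.norm_eq_one, Real.norm_eq_abs, Real.norm_eq_abs,
              show ‖u‖ = 1 by rw [norm_eq_sqrt_real_inner, huu, Real.sqrt_one]]
            simp [sq_abs]
          have h3 : |β j - k j * r| ≤ r / 2 := by
            rw [show β j - k j * r = (β j / r - k j) * r by field_simp, abs_mul, abs_of_pos hr0, hk]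
            nlinarith [abs_sub_round (β j / r)]
          have h4 : (β j - k j * r) ^ 2 ≤ (r / 2) ^ 2 := by
            rw [← sq_abs]
            exact pow_le_pow_left₀ (abs_nonneg _) h3 2
          have h5 : r ^ 2 ≤ ‖act M c j.succ‖ ^ 2 := pow_le_pow_left₀ hr0.le (hr ▸ h1) 2
          simp only [Fin.cons_zero, Fin.cons_succ, Pi.single_eq_same]
          nlinarith
    · have hcb : ∀ i, c i ∈ Submodule.span ℝ (Set.range b) := fun i => hc ▸
        Submodule.sum_mem _ fun j _ => Submodule.smul_mem _ _ (Submodule.subset_span ⟨j, rfl⟩)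
      have hub : u ∈ Submodule.span ℝ (Set.range b) := hu ▸ Submodule.smul_mem _ _ (hcb 0)
      intro i
      induction i using Fin.cases with
      | zero => simpa using hub
      | succ i =>
        simp only [Fin.cons_succ]
        refine Submodule.span_le.2 ?_ (hespan i)
        rintro _ ⟨l, rfl⟩
        rw [hc']
        exact Submodule.sub_mem _ (hcb _) (Submodule.smul_mem _ _ hub)

/-- The rows of a matrix as vectors of Euclidean space. -/
def euclRows (X : Rows n) (i : Fin n) : EuclideanSpace ℝ (Fin n) := WithLp.toLp 2 (X i)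

/-- The reduced matrices. -/
def IsReduced (g : SLR n) : Prop :=
  ∃ e x, Frame e x (euclRows fun i j => g i j) ∧ Siegel x

theorem exists_reduced_SL (g : SLR n) :
    ∃ γ : Matrix.SpecialLinearGroup (Fin n) ℤ,
      IsReduced (Matrix.SpecialLinearGroup.map (Int.castRingHom ℝ) γ * g) := by
  have hli : LinearIndependent ℝ (euclRows fun i j => g i j) := by
    have h : (g : Matrix (Fin n) (Fin n) ℝ).det ≠ 0 := by rw [g.prop]; exact one_ne_zero
    exact (Matrix.linearIndependent_rows_of_det_ne_zero h).map'
      (WithLp.linearEquiv 2 ℝ (Fin n → ℝ)).symm.toLinearMap (LinearEquiv.ker _)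
  obtain ⟨U, e, x, hU, ⟨heo, htri, hdiag, hex⟩, ⟨hoff, hadj⟩, -⟩ := exists_reduced n _ hli
  obtain ⟨s, hs, hdet⟩ : ∃ s : Fin n → ℤ, (∀ i, s i = 1 ∨ s i = -1) ∧
      (Matrix.diagonal s * U).det = 1 := by
    rcases Int.isUnit_iff.1 hU with h | h
    · exact ⟨1, fun _ => Or.inl rfl, by simp [h]⟩
    · rcases n with - | n
      · simp at h
      · refine ⟨Function.update 1 0 (-1), fun i => ?_, ?_⟩
        · rcases eq_or_ne i 0 with rfl | hi <;> simp [*]
        · rw [Matrix.det_mul, Matrix.det_diagonal, h,
            Finset.prod_update_of_mem (Finset.mem_univ _)]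
          simp
  have hs2 : ∀ i, (s i : ℝ) * s i = 1 := fun i => by rcases hs i with h | h <;> simp [h]
  have habs : ∀ i, |(s i : ℝ)| = 1 := fun i => by rcases hs i with h | h <;> simp [h]
  refine ⟨⟨Matrix.diagonal s * U, hdet⟩, fun j => (s j : ℝ) • e j,
    fun i j => (s i : ℝ) * s j * x i j, ⟨?_, ?_, ?_, ?_⟩, ?_, ?_⟩
  · rw [orthonormal_iff_ite] at heo ⊢
    intro i j
    rw [real_inner_smul_left, real_inner_smul_right, heo]
    split_ifs with h
    · rw [h, mul_one, hs2]
    · simp
  · exact fun i j hij => by simp [htri i j hij]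
  · intro i
    beta_reduce
    rw [hs2, one_mul]
    exact hdiag i
  · intro i
    have e1 : euclRows (fun a b => (Matrix.SpecialLinearGroup.map (Int.castRingHom ℝ)
        ⟨Matrix.diagonal s * U, hdet⟩ * g) a b) i =
        (s i : ℝ) • act U (euclRows fun a b => g a b) i := by
      ext l
      simp [euclRows, act, Matrix.mul_apply, Matrix.diagonal_apply, Finset.mul_sum, mul_assoc,
        ite_mul]
    rw [e1, hex i, Finset.smul_sum]
    refine Finset.sum_congr rfl fun j _ => ?_
    rw [smul_smul, smul_smul]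
    congr 1
    linear_combination (-(s i : ℝ) * x i j) * hs2 j
  · intro i j hji
    beta_reduce
    rw [abs_mul, abs_mul, habs, habs, one_mul, one_mul, hs2, one_mul]
    exact hoff i j hji
  · intro i j hij
    beta_reduce
    rw [hs2, hs2, one_mul, one_mul]
    exact hadj i j hij

end FA.SLnLattice

end
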