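import Fermat.Agent.SLnLattice.Reduce
import Mathlib.Data.Fin.Tuple.Basic
import Mathlib.MeasureTheory.Measure.Haar.InnerProductSpace
import Mathlib.Topology.Algebra.InfiniteSum.ENNReal

/-!
# The volume of a Siegel set

The tuples of vectors whose coordinates in some orthonormal frame form a lower triangular matrix
with columns bounded by `r j` form a set of volume at most
`2 ^ (n m) * ∏ j, r j ^ ((m - 1 - j) + (n - j))`; summing over dyadic values of `r` shows that the
cone over the reduced matrices of determinant one has finite volume.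
-/

set_option autoImplicit false

noncomputable section

open MeasureTheory Matrix Set
open scoped RealInnerProductSpace ENNReal

namespace FA.SLnLattice

variable {n m : ℕ}

/-- Tuples of vectors of Euclidean space. -/
abbrev Tuple (n m : ℕ) := Fin m → EuclideanSpace ℝ (Fin n)

/-- The admissible coordinates of a piece. -/
def params (n : ℕ) {m : ℕ} (r : Fin m → ℝ) : Set (Tuple n m × (Fin m → Fin m → ℝ)) :=
  {p | (∀ i j, ⟪p.1 i, p.1 j⟫ = if i = j then (1 : ℝ) else 0) ∧
    (∀ i j, i < j → p.2 i j = 0) ∧ (∀ i j, |p.2 i j| ≤ r j) ∧ ∀ i, r i / 2 ≤ p.2 i i}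

/-- The tuples with given size of the triangular coordinates. -/
def piece (n : ℕ) {m : ℕ} (r : Fin m → ℝ) : Set (Tuple n m) :=
  (fun p : Tuple n m × (Fin m → Fin m → ℝ) => fun i => ∑ j, p.2 i j • p.1 j) '' params n r

theorem isCompact_params (r : Fin m → ℝ) : IsCompact (params n r) := by
  refine ((isCompact_univ_pi fun _ => isCompact_closedBall (0 : EuclideanSpace ℝ (Fin n)) 1).prod
    (isCompact_univ_pi fun _ => isCompact_univ_pi fun j => isCompact_Icc (a := -r j)
      (b := r j))).of_isClosed_subset ?_ ?_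
  · simp only [params, Set.ofPred_and, Set.ofPred_forall]
    refine (isClosed_iInter fun i => isClosed_iInter fun j => ?_).inter
      ((isClosed_iInter fun i => isClosed_iInter fun j => isClosed_iInter fun _ => ?_).inter
        ((isClosed_iInter fun i => isClosed_iInter fun j => ?_).inter
          (isClosed_iInter fun i => ?_)))
    · exact isClosed_eq (by fun_prop) continuous_const
    · exact isClosed_eq (by fun_prop) continuous_const
    · exact isClosed_le (by fun_prop) continuous_const
    · refine isClosed_le continuous_const ?_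
      exact (continuous_apply i).comp ((continuous_apply i).comp continuous_snd)
  · rintro p ⟨ho, -, hb, -⟩
    refine ⟨fun i _ => ?_, fun i _ j _ => abs_le.1 (hb i j)⟩
    rw [mem_closedBall_zero_iff, norm_eq_sqrt_real_inner, ho, if_pos rfl, Real.sqrt_one]

theorem isCompact_piece (r : Fin m → ℝ) : IsCompact (piece n r) :=
  (isCompact_params r).image (by fun_prop)

theorem frame_of_params {r : Fin m → ℝ} (hr : ∀ i, 0 < r i)
    {p : Tuple n m × (Fin m → Fin m → ℝ)} (hp : p ∈ params n r) :
    Frame p.1 p.2 (fun i => ∑ j, p.2 i j • p.1 j) :=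
  ⟨orthonormal_iff_ite.2 hp.1, hp.2.1, fun i => (half_pos (hr i)).trans_le (hp.2.2.2 i),
    fun _ => rfl⟩

/-- A frame is determined by the tuple. -/
theorem frame_unique {e e' : Tuple n m} {x x' : Fin m → Fin m → ℝ} {b : Tuple n m}
    (h : Frame e x b) (h' : Frame e' x' b) : e = e' := by
  funext i
  induction i using WellFoundedLT.induction with
  | ind i ih =>
    have hterm : ∀ j, j ≠ i → x i j • e j = x' i j • e' j := by
      intro j hj
      rcases lt_or_gt_of_ne hj with hlt | hgt
      · have e1 : x i j = ⟪e j, b i⟫ := by rw [h.2.2.2 i, h.1.inner_right_fintype]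
        have e2 : x' i j = ⟪e' j, b i⟫ := by rw [h'.2.2.2 i, h'.1.inner_right_fintype]
        rw [e1, e2, ih j hlt]
      · rw [h.2.1 i j hgt, h'.2.1 i j hgt, zero_smul, zero_smul]
    have hs : x i i • e i = x' i i • e' i := by
      have := (h.2.2.2 i).symm.trans (h'.2.2.2 i)
      rw [← Finset.add_sum_erase _ _ (Finset.mem_univ i),
        ← Finset.add_sum_erase _ (fun j => x' i j • e' j) (Finset.mem_univ i),
        Finset.sum_congr rfl fun j hj => hterm j (Finset.ne_of_mem_erase hj)] at this
      exact add_right_cancel this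
    have hx : x i i = x' i i := by
      have := congrArg norm hs
      simpa [norm_smul, h.1.norm_eq_one, h'.1.norm_eq_one, abs_of_pos (h.2.2.1 i),
        abs_of_pos (h'.2.2.1 i)] using this
    rw [hx] at hs
    exact smul_right_injective _ (h'.2.2.1 i).ne' hs

theorem init_of_params {r : Fin (m + 1) → ℝ} {p : Tuple n (m + 1) × (Fin (m + 1) → Fin (m + 1) → ℝ)}
    (hp : p ∈ params n r) :
    (fun i => p.1 i.castSucc, fun i j => p.2 i.castSucc j.castSucc) ∈
        params n (fun i => r i.castSucc) ∧
      ∀ i : Fin m, (∑ j, p.2 i.castSucc j • p.1 j) =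
        ∑ j : Fin m, p.2 i.castSucc j.castSucc • p.1 j.castSucc := by
  refine ⟨⟨fun i j => ?_, fun i j h => hp.2.1 _ _ (Fin.castSucc_lt_castSucc_iff.2 h),
    fun i j => hp.2.2.1 _ _, fun i => hp.2.2.2 _⟩, fun i => ?_⟩
  · simp [hp.1]
  · rw [Fin.sum_univ_castSucc, hp.2.1 _ _ (Fin.castSucc_lt_last i), zero_smul, add_zero]

theorem volume_box (f : OrthonormalBasis (Fin n) ℝ (EuclideanSpace ℝ (Fin n))) {R : Fin n → ℝ}
    (hR : ∀ i, 0 ≤ R i) :
    volume {v : EuclideanSpace ℝ (Fin n) | ∀ i, |⟪f i, v⟫| ≤ R i} =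
      ENNReal.ofReal (∏ i, 2 * R i) := by
  have hmp := (PiLp.volume_preserving_ofLp (Fin n)).comp f.measurePreserving_repr
  have e : {v : EuclideanSpace ℝ (Fin n) | ∀ i, |⟪f i, v⟫| ≤ R i} =
      (WithLp.ofLp ∘ f.repr) ⁻¹' Icc (-R) R := by
    ext v
    simp [Pi.le_def, abs_le, forall_and, OrthonormalBasis.repr_apply_apply]
  rw [e, hmp.measure_preimage measurableSet_Icc.nullMeasurableSet, Real.volume_Icc_pi,
    ENNReal.ofReal_prod_of_nonneg fun i _ => mul_nonneg two_pos.le (hR i)]
  exact Finset.prod_congr rfl fun i _ => by rw [Pi.neg_apply, sub_neg_eq_add, ← two_mul]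

theorem volume_slice_le {k : ℕ} {r : Fin (m + 1) → ℝ} (hr : ∀ i, 0 < r i) (y : Tuple (m + k) m) :
    volume {v | Fin.snoc (α := fun _ => EuclideanSpace ℝ (Fin (m + k))) y v ∈ piece (m + k) r} ≤
      (piece (m + k) fun i => r i.castSucc).indicator
        (fun _ => ENNReal.ofReal (2 ^ (m + k) * (∏ j : Fin m, r j.castSucc) *
          r (Fin.last m) ^ k)) y := by
  rcases eq_empty_or_nonempty
      {v | Fin.snoc (α := fun _ => EuclideanSpace ℝ (Fin (m + k))) y v ∈ piece (m + k) r} with
    h | ⟨v₀, p₀, hp₀, hv₀⟩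
  · simp [h]
  have hy : ∀ q ∈ params (m + k) r, ∀ v,
      (fun i => ∑ j, q.2 i j • q.1 j) =
        Fin.snoc (α := fun _ => EuclideanSpace ℝ (Fin (m + k))) y v →
      Frame (fun i : Fin m => q.1 i.castSucc) (fun i j => q.2 i.castSucc j.castSucc) y := by
    intro q hq v hv
    obtain ⟨h1, h2⟩ := init_of_params hq
    obtain ⟨ha, hb, hc, -⟩ := frame_of_params (fun i => hr i.castSucc) h1
    refine ⟨ha, hb, hc, fun i => ?_⟩
    have := congrFun hv i.castSucc
    rw [Fin.snoc_castSucc, h2] at this
    exact this.symm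
  have hmem : y ∈ piece (m + k) fun i => r i.castSucc :=
    ⟨_, (init_of_params hp₀).1, funext fun i => ((hy p₀ hp₀ v₀ hv₀).2.2.2 i).symm⟩
  rw [Set.indicator_of_mem hmem]
  obtain ⟨w, hw⟩ : ∃ w : Fin (m + k) → EuclideanSpace ℝ (Fin (m + k)),
      ∀ i : Fin m, w (Fin.castAdd k i) = p₀.1 i.castSucc :=
    ⟨Fin.append (fun i : Fin m => p₀.1 i.castSucc) fun _ => 0, fun i => Fin.append_left _ _ i⟩
  have hwo : Orthonormal ℝ ((Set.range (Fin.castAdd k (n := m))).domRestrict w) := by
    rw [orthonormal_iff_ite]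
    rintro ⟨_, i, rfl⟩ ⟨_, j, rfl⟩
    simp [Set.domRestrict, hw, hp₀.1]
  obtain ⟨f, hf⟩ := hwo.exists_orthonormalBasis_extension_of_card_eq (by simp)
  obtain ⟨R, hR⟩ : ∃ R : Fin (m + k) → ℝ,
      R = Fin.append (fun j : Fin m => r j.castSucc) fun _ => r (Fin.last m) := ⟨_, rfl⟩
  refine (measure_mono (t := {v | ∀ i, |⟪f i, v⟫| ≤ R i}) ?_).trans ?_
  · rintro v ⟨q, hq, hv⟩ i
    have he := frame_unique (hy q hq v hv) (hy p₀ hp₀ v₀ hv₀)
    have hfq : ∀ j : Fin m, f (Fin.castAdd k j) = q.1 j.castSucc := fun j => by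
      rw [hf _ ⟨j, rfl⟩, hw]
      exact (congrFun he j).symm
    have hlast := congrFun hv (Fin.last m)
    rw [Fin.snoc_last] at hlast
    rw [← hlast, inner_sum, Fin.sum_univ_castSucc]
    simp only [real_inner_smul_right]
    induction i using Fin.addCases with
    | left i =>
      rw [hR, Fin.append_left, hfq, Finset.sum_eq_single i]
      · simp [hq.1, hq.2.2.1, (orthonormal_iff_ite.2 hq.1).norm_eq_one]
      · intro j _ hj
        simp [hq.1, Ne.symm hj]
      · exact fun h => absurd (Finset.mem_univ _) h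
    | right i =>
      have h0 : ∀ j : Fin m, ⟪f (Fin.natAdd m i), q.1 j.castSucc⟫ = 0 := fun j => by
        rw [← hfq j]
        exact f.orthonormal.inner_eq_zero fun h => by
          have := congrArg Fin.val h
          simp at this
          omega
      simp only [h0, mul_zero, Finset.sum_const_zero, zero_add]
      rw [hR, Fin.append_right, abs_mul]
      refine (mul_le_of_le_one_right (abs_nonneg _) ?_).trans (hq.2.2.1 _ _)
      refine (abs_real_inner_le_norm _ _).trans ?_
      rw [f.norm_eq_one, (orthonormal_iff_ite.2 hq.1).norm_eq_one, mul_one]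
  · rw [volume_box f fun i => by
      induction i using Fin.addCases <;> simp [hR, (hr _).le]]
    refine le_of_eq (congrArg _ ?_)
    rw [Finset.prod_mul_distrib, Finset.prod_const, Finset.card_univ, Fintype.card_fin, hR,
      Fin.prod_univ_add]
    simp [mul_assoc]

theorem volume_piece_succ_le {k : ℕ} {r : Fin (m + 1) → ℝ} (hr : ∀ i, 0 < r i) :
    volume (piece (m + k) r) ≤
      ENNReal.ofReal (2 ^ (m + k) * (∏ j : Fin m, r j.castSucc) * r (Fin.last m) ^ k) *
        volume (piece (m + k) fun i => r i.castSucc) := by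
  obtain ⟨ψ, hψ⟩ : ∃ ψ, ψ = MeasurableEquiv.piFinSuccAbove
      (fun _ : Fin (m + 1) => EuclideanSpace ℝ (Fin (m + k))) (Fin.last m) := ⟨_, rfl⟩
  have hmp : MeasurePreserving ψ volume volume := hψ ▸ volume_preserving_piFinSuccAbove _ _
  have hm : MeasurableSet (piece (m + k) r) := (isCompact_piece r).measurableSet
  rw [← (hmp.symm ψ).measure_preimage hm.nullMeasurableSet,
    show (volume : Measure (EuclideanSpace ℝ (Fin (m + k)) × Tuple (m + k) m)) =
      (volume : Measure (EuclideanSpace ℝ (Fin (m + k)))).prod volume from rfl,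
    Measure.prod_apply_symm (ψ.symm.measurable hm),
    ← lintegral_indicator_const (isCompact_piece _).measurableSet]
  refine lintegral_mono fun y => ?_
  convert! volume_slice_le hr y using 2
  ext v
  simp [hψ, Fin.insertNth_last', Fin.snocEquiv]

/-- **The volume of a piece.** -/
theorem volume_piece_le : ∀ (m k : ℕ) (r : Fin m → ℝ), (∀ i, 0 < r i) →
    volume (piece (m + k) r) ≤
      ENNReal.ofReal (2 ^ ((m + k) * m) * ∏ j : Fin m, r j ^ ((m - 1 - j) + (m + k - j)))
  | 0, k, r, _ => by
    refine (measure_mono (subset_univ _)).trans ?_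
    rw [volume_pi, Measure.pi_of_empty]
    simp
  | m + 1, k, r, hr => by
    have ih := volume_piece_le m (k + 1) (fun i => r i.castSucc) fun i => hr _
    have h := volume_piece_succ_le (k := k + 1) hr
    rw [show m + (k + 1) = m + 1 + k by omega] at h ih
    refine h.trans ((mul_le_mul' le_rfl ih).trans_eq ?_)
    rw [← ENNReal.ofReal_mul (by
      have := Finset.prod_nonneg (s := Finset.univ) fun (j : Fin m) _ => (hr j.castSucc).le
      have := hr (Fin.last m)
      positivity)]
    congr 1
    rw [Fin.prod_univ_castSucc, Fin.val_last]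
    have e : (∏ j : Fin m, r j.castSucc) * ∏ j : Fin m,
        r j.castSucc ^ ((m - 1 - j) + (m + 1 + k - j)) =
        ∏ j : Fin m, r j.castSucc ^ ((m + 1 - 1 - j) + (m + 1 + k - j)) := by
      rw [← Finset.prod_mul_distrib]
      refine Finset.prod_congr rfl fun j _ => ?_
      rw [← pow_succ']
      congr 1
      omega
    simp only [Fin.val_castSucc]
    rw [← e, show m + 1 - 1 - m + (m + 1 + k - m) = k + 1 by omega,
      show (m + 1 + k) * (m + 1) = (m + 1 + k) * m + (m + 1 + k) by ring, pow_add]
    ring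

end FA.SLnLattice

end
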